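import Fermat.Agent.CFT.Herbrand
import Fermat.Agent.CFT.HerbrandPi

/-
Project C, slice C4 (abstract part): the Herbrand bookkeeping of the first inequality.

`J` an abelian group ("ideles of `L`", written additively) with an endomorphism `σ` of order
dividing `n` ("generator of the cyclic group `Gal(L/K)`"), `P` and `JT` two `σ`-stable subgroups
("principal ideles", "`T`-ideles") with `P ⊔ JT = ⊤`, and `π : J → C` a surjective equivariant map
with kernel `P` ("idele class group").  If the Herbrand quotients of `JT` and of `P ⊓ JT`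
("`T`-units") are defined, then so is that of `C`, and `h(JT) = h(P ⊓ JT) * h(C)`.
In particular if `h(JT) = a`, `h(P ⊓ JT) = b`, `b * n = a`, then `h(C) = n` and
`[ker (σ - 1) : im N] = n * [ker N : im (σ - 1)]` on `C`, so `n ∣ |Ĥ⁰(G, C)|`.
-/

set_option autoImplicit false

noncomputable section

namespace Fermat.Agent.CFT.C4.Abstract

open Fermat.Agent.CFT.Herbrand

variable {J C : Type*} [AddCommGroup J] [AddCommGroup C]

/-- `σ`-stable subgroups are `(σ - 1)`-stable. -/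
theorem delta_stable (σ : J →+ J) (A' : AddSubgroup J) (h : ∀ x ∈ A', σ x ∈ A') :
    ∀ x ∈ A', delta σ x ∈ A' := fun x hx => by
  rw [delta_apply]
  exact A'.sub_mem (h x hx) hx

theorem iterate_stable (σ : J →+ J) (A' : AddSubgroup J) (h : ∀ x ∈ A', σ x ∈ A') (i : ℕ) :
    ∀ x ∈ A', σ^[i] x ∈ A' := by
  induction i with
  | zero => exact fun x hx => hx
  | succ i ih =>
    intro x hx
    rw [Function.iterate_succ_apply']
    exact h _ (ih x hx)

/-- `σ`-stable subgroups are stable under the norm. -/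
theorem nrm_stable (σ : J →+ J) (n : ℕ) (A' : AddSubgroup J) (h : ∀ x ∈ A', σ x ∈ A') :
    ∀ x ∈ A', nrm σ n x ∈ A' := fun x hx => by
  rw [nrm_apply]
  exact A'.sum_mem fun i _ => iterate_stable σ A' h i x hx

/-- An equivariant map commutes with `σ - 1`. -/
theorem map_delta (π : J →+ C) (σ : J →+ J) (σC : C →+ C) (h : ∀ x, π (σ x) = σC (π x)) (x : J) :
    π (delta σ x) = delta σC (π x) := by
  rw [delta_apply, delta_apply, map_sub, h]

/-- An equivariant map commutes with the norm. -/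
theorem map_nrm (π : J →+ C) (σ : J →+ J) (σC : C →+ C) (h : ∀ x, π (σ x) = σC (π x)) (n : ℕ)
    (x : J) : π (nrm σ n x) = nrm σC n (π x) := by
  rw [nrm_apply, nrm_apply, map_sum]
  have hsc : Function.Semiconj π σ σC := h
  exact Finset.sum_congr rfl fun i _ => (hsc.iterate_right i).eq x

/-- If `σ` has order dividing `n` on `J` and `π : J → C` is surjective and equivariant, then `σC`
has order dividing `n` on `C`. -/
theorem iterate_eq_of_surjective (π : J →+ C) (hπ : Function.Surjective π) (σ : J →+ J)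
    (σC : C →+ C) (h : ∀ x, π (σ x) = σC (π x)) (n : ℕ) (hσ : ∀ x, σ^[n] x = x) (c : C) :
    σC^[n] c = c := by
  obtain ⟨x, rfl⟩ := hπ c
  have hsc : Function.Semiconj π σ σC := h
  rw [← (hsc.iterate_right n).eq x, hσ]

section Main

variable (σ : J →+ J) (n : ℕ) (hσ : ∀ x, σ^[n] x = x) (P JT : AddSubgroup J)
  (hP : ∀ x ∈ P, σ x ∈ P) (hJT : ∀ x ∈ JT, σ x ∈ JT) (hsup : P ⊔ JT = ⊤)
  (π : J →+ C) (hπ : Function.Surjective π) (hker : π.ker = P)
  (σC : C →+ C) (hπσ : ∀ x, π (σ x) = σC (π x))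

include hσ hP hJT hsup hπ hker hπσ

/-- The short exact sequence `0 → P ⊓ JT → JT → C → 0` with its Herbrand data. -/
theorem isSES :
    IsSES (AddSubgroup.inclusion (inf_le_right : P ⊓ JT ≤ JT)) (π.comp JT.subtype)
      (restr (delta σ) (P ⊓ JT)
        (delta_stable σ _ fun x hx => ⟨hP x hx.1, hJT x hx.2⟩))
      (restr (nrm σ n) (P ⊓ JT)
        (nrm_stable σ n _ fun x hx => ⟨hP x hx.1, hJT x hx.2⟩))
      (restr (delta σ) JT (delta_stable σ JT hJT))
      (restr (nrm σ n) JT (nrm_stable σ n JT hJT))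
      (delta σC) (nrm σC n) where
  inj := AddSubgroup.inclusion_injective _
  surj := by
    intro c
    obtain ⟨x, rfl⟩ := hπ c
    have hx : x ∈ P ⊔ JT := hsup ▸ AddSubgroup.mem_top x
    obtain ⟨y, hy, t, ht, rfl⟩ := AddSubgroup.mem_sup.mp hx
    refine ⟨⟨t, ht⟩, ?_⟩
    have hy0 : π y = 0 := by
      rw [← AddMonoidHom.mem_ker, hker]
      exact hy
    simp [hy0]
  exact := by
    ext t
    rw [AddMonoidHom.mem_range, AddMonoidHom.mem_ker, AddMonoidHom.comp_apply,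
      ← AddMonoidHom.mem_ker, hker]
    constructor
    · rintro ⟨u, rfl⟩
      exact u.2.1
    · intro h
      exact ⟨⟨t.1, h, t.2⟩, rfl⟩
  fg := fun t => Subtype.ext (delta_nrm_eq_zero σ n hσ t.1)
  gf := fun t => Subtype.ext (nrm_delta_eq_zero σ n hσ t.1)
  f_φ := fun _ => rfl
  g_φ := fun _ => rfl
  f_ψ := fun t => map_delta π σ σC hπσ t.1
  g_ψ := fun t => map_nrm π σ σC hπσ n t.1

/-- **First inequality, abstract Herbrand form**: `h(JT) = h(P ⊓ JT) * h(C)`. -/
theorem isDefined_quot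
    (hT : IsDefinedSub (delta σ) (nrm σ n) JT)
    (hU : IsDefinedSub (delta σ) (nrm σ n) (P ⊓ JT)) :
    IsDefined (delta σC) (nrm σC n) ∧
      herbrandSub (delta σ) (nrm σ n) JT =
        herbrandSub (delta σ) (nrm σ n) (P ⊓ JT) * hcyc σC n := by
  have hS := isSES σ n hσ P JT hP hJT hsup π hπ hker σC hπσ
  have sU : ∀ x ∈ P ⊓ JT, σ x ∈ P ⊓ JT := fun x hx => ⟨hP x hx.1, hJT x hx.2⟩
  have h1 : IsDefined (restr (delta σ) (P ⊓ JT) (delta_stable σ _ sU))
      (restr (nrm σ n) (P ⊓ JT) (nrm_stable σ n _ sU)) :=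
    (isDefined_restr_iff _ _ _ _ _).mpr hU
  have h2 : IsDefined (restr (delta σ) JT (delta_stable σ JT hJT))
      (restr (nrm σ n) JT (nrm_stable σ n JT hJT)) :=
    (isDefined_restr_iff _ _ _ _ _).mpr hT
  have := hS.isDefined_right h1 h2
  rwa [herbrand_restr, herbrand_restr] at this

/-- **First inequality, abstract form**: if `h(JT) = a` and `h(P ⊓ JT) = b` with `b * n = a`
(`a = ∏ n_v`, `b = ∏ n_v / n`), then `h(C) = n`. -/
theorem hcyc_quot_eq (a b : ℚ) (hb : b ≠ 0) (hab : b * n = a)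
    (hT : IsDefinedSub (delta σ) (nrm σ n) JT)
    (hU : IsDefinedSub (delta σ) (nrm σ n) (P ⊓ JT))
    (ha : herbrandSub (delta σ) (nrm σ n) JT = a)
    (hb' : herbrandSub (delta σ) (nrm σ n) (P ⊓ JT) = b) :
    IsDefined (delta σC) (nrm σC n) ∧ hcyc σC n = n := by
  obtain ⟨h1, h2⟩ := isDefined_quot σ n hσ P JT hP hJT hsup π hπ hker σC hπσ hT hU
  refine ⟨h1, ?_⟩
  rw [ha, hb', ← hab] at h2
  exact (mul_left_cancel₀ hb h2).symm

omit hσ hP hJT hsup hπ hker hπσ in
/-- `h = n` means `|Ĥ⁰| = n * |H¹|`. -/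
theorem idx_eq_mul_of_hcyc_eq (τ : C →+ C) (hd : IsDefined (delta τ) (nrm τ n))
    (h : hcyc τ n = n) :
    idx (delta τ) (nrm τ n) = n * idx (nrm τ n) (delta τ) := by
  have h2 : (idx (nrm τ n) (delta τ) : ℚ) ≠ 0 := by exact_mod_cast hd.2
  rw [hcyc, herbrand, div_eq_iff h2] at h
  exact_mod_cast h

/-- **First inequality**: `n` divides `[ker (σ - 1) : im N]` on `C`, which is nonzero. -/
theorem dvd_idx_quot (a b : ℚ) (hb : b ≠ 0) (hab : b * n = a)
    (hT : IsDefinedSub (delta σ) (nrm σ n) JT)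
    (hU : IsDefinedSub (delta σ) (nrm σ n) (P ⊓ JT))
    (ha : herbrandSub (delta σ) (nrm σ n) JT = a)
    (hb' : herbrandSub (delta σ) (nrm σ n) (P ⊓ JT) = b) :
    n ∣ idx (delta σC) (nrm σC n) ∧ idx (delta σC) (nrm σC n) ≠ 0 ∧
      idx (delta σC) (nrm σC n) = n * idx (nrm σC n) (delta σC) := by
  obtain ⟨h1, h2⟩ := hcyc_quot_eq σ n hσ P JT hP hJT hsup π hπ hker σC hπσ a b hb hab hT hU ha hb'
  have h3 := idx_eq_mul_of_hcyc_eq n σC h1 h2
  exact ⟨Dvd.intro _ h3.symm, h1.1, h3⟩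

end Main

section Types

variable {U₀ T₀ : Type*} [AddCommGroup U₀] [AddCommGroup T₀]

/-- The subgroup-form Herbrand data of the image of an injective equivariant map. -/
theorem herbrandSub_range (σ : J →+ J) (n : ℕ) (ι : U₀ →+ J) (hι : Function.Injective ι)
    (σU : U₀ →+ U₀) (h : ∀ u, ι (σU u) = σ (ι u)) :
    (IsDefinedSub (delta σ) (nrm σ n) ι.range ↔ IsDefined (delta σU) (nrm σU n)) ∧
      herbrandSub (delta σ) (nrm σ n) ι.range = hcyc σU n := by
  have e1 := idx_eq_idxSub ι hι (delta σU) (nrm σU n) (delta σ) (nrm σ n)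
    (map_delta ι σU σ h) (map_nrm ι σU σ h n)
  have e2 := idx_eq_idxSub ι hι (nrm σU n) (delta σU) (nrm σ n) (delta σ)
    (map_nrm ι σU σ h n) (map_delta ι σU σ h)
  constructor
  · rw [IsDefinedSub, IsDefined, e1, e2]
  · rw [herbrandSub, hcyc, herbrand, e1, e2]

/-- **First inequality, abstract form, with the `T`-units and the `T`-ideles given as types**:
`ιU : U₀ → J`, `ιT : T₀ → J` injective and equivariant with `range ιU = P ⊓ range ιT` and
`P ⊔ range ιT = ⊤`; if `h(U₀) * n = h(T₀)` (both defined) then `h(C) = n` and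
`|Ĥ⁰(C)| = n * |H¹(C)|` for `C = J / P`. -/
theorem first_inequality (σ : J →+ J) (n : ℕ) (hσ : ∀ x, σ^[n] x = x) (P : AddSubgroup J)
    (hP : ∀ x ∈ P, σ x ∈ P)
    (ιU : U₀ →+ J) (hιU : Function.Injective ιU) (σU : U₀ →+ U₀) (hU : ∀ u, ιU (σU u) = σ (ιU u))
    (ιT : T₀ →+ J) (hιT : Function.Injective ιT) (σT : T₀ →+ T₀) (hT : ∀ t, ιT (σT t) = σ (ιT t))
    (hUr : ιU.range = P ⊓ ιT.range) (hsup : P ⊔ ιT.range = ⊤)
    (π : J →+ C) (hπ : Function.Surjective π) (hker : π.ker = P)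
    (σC : C →+ C) (hπσ : ∀ x, π (σ x) = σC (π x))
    (hdU : IsDefined (delta σU) (nrm σU n)) (hdT : IsDefined (delta σT) (nrm σT n))
    (hab : hcyc σU n * n = hcyc σT n) :
    IsDefined (delta σC) (nrm σC n) ∧ hcyc σC n = n ∧
      idx (delta σC) (nrm σC n) = n * idx (nrm σC n) (delta σC) := by
  have hJT : ∀ x ∈ ιT.range, σ x ∈ ιT.range := by
    rintro _ ⟨t, rfl⟩
    exact ⟨σT t, hT t⟩
  obtain ⟨dU, eU⟩ := herbrandSub_range σ n ιU hιU σU hU
  obtain ⟨dT, eT⟩ := herbrandSub_range σ n ιT hιT σT hT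
  rw [hUr] at dU eU
  have hb : hcyc σU n ≠ 0 := (herbrand_ne_zero_iff _ _).mpr hdU
  obtain ⟨h1, h2⟩ := hcyc_quot_eq σ n hσ P ιT.range hP hJT hsup π hπ hker σC hπσ
    (hcyc σT n) (hcyc σU n) hb hab (dT.mpr hdT) (dU.mpr hdU) eT eU
  exact ⟨h1, h2, idx_eq_mul_of_hcyc_eq n σC h1 h2⟩

end Types

end Fermat.Agent.CFT.C4.Abstract
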