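import Fermat.Agent.CFT.C4.Abstract

/-
Project C, slice C4 (abstract part, multiplicative wrapper): the first inequality bookkeeping for
multiplicatively written groups (ideles), with the principal ideles given as the range of a
homomorphism `diag`.
-/

set_option autoImplicit false

noncomputable section

namespace Fermat.Agent.CFT.C4.AbstractMul

open Fermat.Agent.CFT.Herbrand Fermat.Agent.CFT.C4.Abstract

variable {Jm Cm Lx Um Tm : Type*} [CommGroup Jm] [CommGroup Cm] [CommGroup Lx] [CommGroup Um]
  [CommGroup Tm]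

theorem toAdditive_iterate {G : Type*} [CommGroup G] (s : G →* G) (i : ℕ) (x : Additive G) :
    (MonoidHom.toAdditive s)^[i] x = Additive.ofMul (s^[i] x.toMul) := by
  induction i generalizing x with
  | zero => rfl
  | succ i ih =>
    rw [Function.iterate_succ_apply, ih, Function.iterate_succ_apply]
    rfl

theorem range_toAdditive {G H : Type*} [CommGroup G] [CommGroup H] (f : G →* H) :
    (MonoidHom.toAdditive f).range = Subgroup.toAddSubgroup f.range := by
  ext x
  constructor
  · rintro ⟨y, rfl⟩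
    exact ⟨y.toMul, rfl⟩
  · rintro ⟨y, hy⟩
    exact ⟨Additive.ofMul y, hy⟩

theorem ker_toAdditive {G H : Type*} [CommGroup G] [CommGroup H] (f : G →* H) :
    (MonoidHom.toAdditive f).ker = Subgroup.toAddSubgroup f.ker := by
  ext x
  rfl

/-- **First inequality, abstract form, multiplicative version.**  `s` an endomorphism of `Jm` with
`s^n = 1`; `diag : Lx →* Jm` equivariant (principal ideles); `ιU : Um →* Jm` (`T`-units) and
`ιT : Tm →* Jm` (`T`-ideles) injective and equivariant with `range ιU = range diag ⊓ range ιT`,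
`range diag ⊔ range ιT = ⊤`; `π : Jm →* Cm` surjective equivariant with kernel `range diag`.
If `h(Um) * n = h(Tm)` (both defined) then on `Cm`: defined, `h = n`, `|Ĥ⁰| = n * |H¹|`. -/
theorem first_inequality_mul (s : Jm →* Jm) (n : ℕ) (hs : ∀ x, s^[n] x = x)
    (diag : Lx →* Jm) (sL : Lx →* Lx) (hdiag : ∀ a, diag (sL a) = s (diag a))
    (ιU : Um →* Jm) (hιU : Function.Injective ιU) (sU : Um →* Um) (hU : ∀ u, ιU (sU u) = s (ιU u))
    (ιT : Tm →* Jm) (hιT : Function.Injective ιT) (sT : Tm →* Tm) (hT : ∀ t, ιT (sT t) = s (ιT t))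
    (hUr : ιU.range = diag.range ⊓ ιT.range) (hsup : diag.range ⊔ ιT.range = ⊤)
    (π : Jm →* Cm) (hπ : Function.Surjective π) (hker : π.ker = diag.range)
    (sC : Cm →* Cm) (hπs : ∀ x, π (s x) = sC (π x))
    (hdU : IsDefined (delta (MonoidHom.toAdditive sU)) (nrm (MonoidHom.toAdditive sU) n))
    (hdT : IsDefined (delta (MonoidHom.toAdditive sT)) (nrm (MonoidHom.toAdditive sT) n))
    (hab : hcyc (MonoidHom.toAdditive sU) n * n = hcyc (MonoidHom.toAdditive sT) n) :
    IsDefined (delta (MonoidHom.toAdditive sC)) (nrm (MonoidHom.toAdditive sC) n) ∧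
      hcyc (MonoidHom.toAdditive sC) n = n ∧
      idx (delta (MonoidHom.toAdditive sC)) (nrm (MonoidHom.toAdditive sC) n) =
        n * idx (nrm (MonoidHom.toAdditive sC) n) (delta (MonoidHom.toAdditive sC)) := by
  refine first_inequality (MonoidHom.toAdditive s) n ?_ (Subgroup.toAddSubgroup diag.range) ?_
    (MonoidHom.toAdditive ιU) hιU (MonoidHom.toAdditive sU) hU
    (MonoidHom.toAdditive ιT) hιT (MonoidHom.toAdditive sT) hT ?_ ?_
    (MonoidHom.toAdditive π) hπ ?_ (MonoidHom.toAdditive sC) hπs hdU hdT hab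
  · intro x
    rw [toAdditive_iterate, hs]
    rfl
  · rintro x ⟨a, rfl⟩
    exact ⟨sL a, hdiag a⟩
  · rw [range_toAdditive, range_toAdditive, hUr]
    rfl
  · rw [range_toAdditive, ← map_sup, hsup]
    rfl
  · rw [ker_toAdditive, hker]

end Fermat.Agent.CFT.C4.AbstractMul
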