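import Mathlib
import Fermat.Agent.CFT.HerbrandPi
import Fermat.Agent.CFT.Idele.Class
import Fermat.Agent.CFT.SUnit.TUnitsHerbrand
import Fermat.Agent.CFT.Semilocal.Transport

/-!
# PROJECT C, slice C4 (assembly), part 2: the Herbrand quotient of the `T`-ideles

`L` a number field, `γ : L ≃ₐ[ℚ] L` with `γ ^ n = 1`, `T` a finite set of rational primes.  If for
every `q ∉ T` the integral local units `U_q(L)` satisfy `Ĥ⁰ = Ĥ⁻¹ = 0` (both indices `= 1`), then

  `h(J_{L,T}) = ∏_{q ∈ T} h((L ⊗ ℚ_q)ˣ)`      (`hcyc_actJT`).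
-/

set_option autoImplicit false
set_option linter.unusedSectionVars false

open scoped TensorProduct NumberField

noncomputable section

namespace Fermat.Agent.CFT.C4.IdeleFactor

open Fermat.Agent.CFT.Herbrand Fermat.Agent.CFT.HerbrandPi Fermat.Agent.CFT.Idele
  Fermat.Agent.CFT.SUnit.TUnitsHerbrand

variable {L : Type} [Field L] [NumberField L] (T : Finset Nat.Primes) (γ : L ≃ₐ[ℚ] L)

/-- the action of `γ` on the `T`-ideles -/
def actJT : JTsub L (T : Set Nat.Primes) →* JTsub L (T : Set Nat.Primes) where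
  toFun x := ⟨γ • x.1, (smul_mem_JTsub_iff γ _ x.1).mpr x.2⟩
  map_one' := Subtype.ext (smul_one γ)
  map_mul' x y := Subtype.ext (smul_mul' γ x.1 y.1)

@[simp] theorem coe_actJT (x : JTsub L (T : Set Nat.Primes)) :
    ((actJT T γ x : JTsub L (T : Set Nat.Primes)) : J L) = γ • (x : J L) := rfl

/-- `J_{L,T}` as a subgroup of `J L` is the subgroup `JT L T` of the full product. -/
def subEquiv : JTsub L (T : Set Nat.Primes) ≃* JT L (T : Set Nat.Primes) where
  toFun x := ⟨x.1.1, x.2⟩
  invFun y := ⟨⟨y.1, jT_le_J L T y.2⟩, y.2⟩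
  left_inv _ := rfl
  right_inv _ := rfl
  map_mul' _ _ := rfl

/-- the factors of the product decomposition, additively -/
abbrev Fac1 : Type := ∀ q : ((T : Set Nat.Primes) : Type), Additive (Loc L q)ˣ

/-- the factors of the product decomposition outside `T`, additively -/
abbrev Fac2 : Type :=
  ∀ q : {q : Nat.Primes // q ∉ (T : Set Nat.Primes)}, Additive (intUnits L q)

/-- the additive form of the product decomposition of `J_{L,T}` -/
def addEquiv : Additive (JTsub L (T : Set Nat.Primes)) ≃+ Fac1 (L := L) T × Fac2 (L := L) T where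
  toFun x := (fun q => Additive.ofMul ((JTprod L (T : Set Nat.Primes) (subEquiv T x.toMul)).1 q),
    fun q => Additive.ofMul ((JTprod L (T : Set Nat.Primes) (subEquiv T x.toMul)).2 q))
  invFun y := Additive.ofMul ((subEquiv T).symm ((JTprod L (T : Set Nat.Primes)).symm
    (fun q => (y.1 q).toMul, fun q => (y.2 q).toMul)))
  left_inv x := by
    show Additive.ofMul ((subEquiv T).symm ((JTprod L (T : Set Nat.Primes)).symm
      (JTprod L (T : Set Nat.Primes) (subEquiv T x.toMul)))) = x
    rw [MulEquiv.symm_apply_apply, MulEquiv.symm_apply_apply]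
    rfl
  right_inv y := by
    show (fun q => Additive.ofMul ((JTprod L (T : Set Nat.Primes) (subEquiv T ((subEquiv T).symm
        ((JTprod L (T : Set Nat.Primes)).symm (fun q => (y.1 q).toMul, fun q => (y.2 q).toMul))))).1 q),
      fun q => Additive.ofMul ((JTprod L (T : Set Nat.Primes) (subEquiv T ((subEquiv T).symm
        ((JTprod L (T : Set Nat.Primes)).symm
          (fun q => (y.1 q).toMul, fun q => (y.2 q).toMul))))).2 q)) = y
    rw [MulEquiv.apply_symm_apply, MulEquiv.apply_symm_apply]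
    rfl
  map_add' _ _ := rfl

/-- the action on the `T`-factors -/
def sig1 (q : ((T : Set Nat.Primes) : Type)) : Additive (Loc L q)ˣ →+ Additive (Loc L q)ˣ :=
  MonoidHom.toAdditive (autUnits γ q)

/-- the action on the factors outside `T` -/
def sig2 (q : {q : Nat.Primes // q ∉ (T : Set Nat.Primes)}) :
    Additive (intUnits L q) →+ Additive (intUnits L q) :=
  MonoidHom.toAdditive (autIntUnits γ q)

theorem addEquiv_actJT (x : Additive (JTsub L (T : Set Nat.Primes))) :
    addEquiv T (MonoidHom.toAdditive (actJT T γ) x) =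
      ((AddMonoidHom.piMap (sig1 T γ)).prodMap (AddMonoidHom.piMap (sig2 T γ))) (addEquiv T x) :=
  rfl

/-- **The Herbrand quotient of the `T`-ideles.** -/
theorem hcyc_actJT (n : ℕ)
    (h0 : ∀ q : Nat.Primes, q ∉ T →
      idx (delta (MonoidHom.toAdditive (autIntUnits γ q)))
        (nrm (MonoidHom.toAdditive (autIntUnits γ q)) n) = 1)
    (h1 : ∀ q : Nat.Primes, q ∉ T →
      idx (nrm (MonoidHom.toAdditive (autIntUnits γ q)) n)
        (delta (MonoidHom.toAdditive (autIntUnits γ q))) = 1)
    (hT : ∀ q ∈ T, IsDefined (delta (MonoidHom.toAdditive (autUnits γ q)))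
      (nrm (MonoidHom.toAdditive (autUnits γ q)) n)) :
    IsDefined (delta (MonoidHom.toAdditive (actJT T γ)))
        (nrm (MonoidHom.toAdditive (actJT T γ)) n) ∧
      hcyc (MonoidHom.toAdditive (actJT T γ)) n =
        ∏ q ∈ T, hcyc (MonoidHom.toAdditive (autUnits γ q)) n := by
  have hd := Fermat.Agent.CFT.Semilocal.isDefined_cyc_congr (addEquiv (L := L) T)
    (MonoidHom.toAdditive (actJT T γ))
    ((AddMonoidHom.piMap (sig1 T γ)).prodMap (AddMonoidHom.piMap (sig2 T γ)))
    (addEquiv_actJT T γ) n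
  have hh := Fermat.Agent.CFT.Semilocal.hcyc_congr (addEquiv (L := L) T)
    (MonoidHom.toAdditive (actJT T γ))
    ((AddMonoidHom.piMap (sig1 T γ)).prodMap (AddMonoidHom.piMap (sig2 T γ)))
    (addEquiv_actJT T γ) n
  have e1 : idx (delta (AddMonoidHom.piMap (sig2 (L := L) T γ)))
      (nrm (AddMonoidHom.piMap (sig2 T γ)) n) = 1 := by
    rw [delta_piMap, nrm_piMap]
    exact idx_piMap_eq_one _ _ fun q => h0 q.1 q.2
  have e2 : idx (nrm (AddMonoidHom.piMap (sig2 (L := L) T γ)) n)
      (delta (AddMonoidHom.piMap (sig2 T γ))) = 1 := by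
    rw [delta_piMap, nrm_piMap]
    exact idx_piMap_eq_one _ _ fun q => h1 q.1 q.2
  have hT' : ∀ q : ((T : Set Nat.Primes) : Type),
      IsDefined (delta (sig1 (L := L) T γ q)) (nrm (sig1 T γ q) n) := fun q => hT q.1 q.2
  have d1 : IsDefined (delta (AddMonoidHom.piMap (sig1 (L := L) T γ)))
      (nrm (AddMonoidHom.piMap (sig1 T γ)) n) := by
    rw [delta_piMap, nrm_piMap]
    exact isDefined_piMap _ _ hT'
  constructor
  · rw [hd, IsDefined, delta_prodMap, nrm_prodMap, idx_prodMap, idx_prodMap, e1, e2, mul_one,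
      mul_one]
    exact d1
  · rw [hh, hcyc, delta_prodMap, nrm_prodMap, herbrand_prodMap]
    have : herbrand (delta (AddMonoidHom.piMap (sig2 (L := L) T γ)))
        (nrm (AddMonoidHom.piMap (sig2 T γ)) n) = 1 := by
      rw [herbrand, e1, e2]
      simp
    rw [this, mul_one]
    show hcyc (AddMonoidHom.piMap (sig1 (L := L) T γ)) n = _
    rw [hcyc_piMap]
    exact Finset.prod_coe_sort T fun q => hcyc (MonoidHom.toAdditive (autUnits γ q)) n

end Fermat.Agent.CFT.C4.IdeleFactor
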