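import Fermat.Agent.CFT.C4.Abstract
import Fermat.Agent.CFT.HerbrandPerm

/-
Project C, slice C4 (abstract part): the semilocal valuation sequence.

`U → G → ℤ^X` exact (`U` = semilocal units, `G = (L ⊗ ℚ_q)ˣ`, `X` = primes of `L` over `q`),
with a compatible automorphism of order dividing `n` which permutes `X`: then
`h(G) = h(U) * ∏_{orbits} n / #orbit`  (`= h(U) * ∏_{v | q} n_v`).
-/

set_option autoImplicit false
set_option linter.unusedSectionVars false

noncomputable section

namespace Fermat.Agent.CFT.C4.Semilocal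

open Fermat.Agent.CFT.Herbrand Fermat.Agent.CFT.HerbrandPerm Fermat.Agent.CFT.C4.Abstract

variable {X Y : Type*} [Fintype X] [DecidableEq X] [Fintype Y] [DecidableEq Y]

section Add

variable {U G : Type*} [AddCommGroup U] [AddCommGroup G]

/-- **Semilocal valuation sequence, additive form.** -/
theorem hcyc_of_vals_add (φ : U →+ G) (val : G →+ (X → ℤ)) (σU : U →+ U) (σG : G →+ G) (n : ℕ)
    (hn : 0 < n) (π : Equiv.Perm X) (p : X → Y)
    (hπ : ∀ x, (π ^ n) x = x) (hp : ∀ x, p (π x) = p x) (hsurj : Function.Surjective p)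
    (htrans : ∀ x x', p x = p x' → ∃ j : ℕ, (π ^ j) x = x')
    (hφ : Function.Injective φ) (hval : Function.Surjective val) (hex : φ.range = val.ker)
    (hφs : ∀ u, φ (σU u) = σG (φ u)) (hvals : ∀ g, val (σG g) = permHom π (val g))
    (hσG : ∀ g, σG^[n] g = g)
    (hU : IsDefined (delta σU) (nrm σU n)) :
    IsDefined (delta σG) (nrm σG n) ∧
      hcyc σG n = hcyc σU n * ∏ y, (mult p n y : ℚ) := by
  have hS : IsSES φ val (delta σU) (nrm σU n) (delta σG) (nrm σG n)
      (delta (permHom π)) (nrm (permHom π) n) :=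
    { inj := hφ
      surj := hval
      exact := hex
      fg := delta_nrm_eq_zero σG n hσG
      gf := nrm_delta_eq_zero σG n hσG
      f_φ := map_delta φ σU σG hφs
      g_φ := map_nrm φ σU σG hφs n
      f_ψ := map_delta val σG (permHom π) hvals
      g_ψ := map_nrm val σG (permHom π) hvals n }
  obtain ⟨hd, hh⟩ := hcyc_permHom π p n hπ hp hsurj htrans hn
  have h := hS.isDefined_mid hU hd
  refine ⟨h.1, ?_⟩
  rw [hcyc, h.2, ← hh]
  rfl

end Add

section Mul

variable {U G : Type*} [CommGroup U] [CommGroup G]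

/-- the vector of valuations as an additive map -/
def valHom (ord : X → G →* Multiplicative ℤ) : Additive G →+ (X → ℤ) where
  toFun g := fun x => Multiplicative.toAdd (ord x g.toMul)
  map_zero' := by
    ext x
    simp
  map_add' a b := by
    ext x
    simp

@[simp] theorem valHom_apply (ord : X → G →* Multiplicative ℤ) (g : Additive G) (x : X) :
    valHom ord g x = Multiplicative.toAdd (ord x g.toMul) := rfl

/-- **Semilocal valuation sequence, multiplicative form**: `ord x : G →* Multiplicative ℤ`
(`x : X`) jointly surjective, with common kernel `range φ`, and `ord (π x) (sG g) = ord x g`. -/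
theorem hcyc_of_vals (φ : U →* G) (ord : X → G →* Multiplicative ℤ) (sU : U →* U) (sG : G →* G)
    (n : ℕ) (hn : 0 < n) (π : Equiv.Perm X) (p : X → Y)
    (hπ : ∀ x, (π ^ n) x = x) (hp : ∀ x, p (π x) = p x) (hsurj : Function.Surjective p)
    (htrans : ∀ x x', p x = p x' → ∃ j : ℕ, (π ^ j) x = x')
    (hφ : Function.Injective φ)
    (hord : ∀ f : X → ℤ, ∃ g : G, ∀ x, ord x g = Multiplicative.ofAdd (f x))
    (hex : ∀ g : G, g ∈ φ.range ↔ ∀ x, ord x g = 1)
    (hφs : ∀ u, φ (sU u) = sG (φ u)) (hords : ∀ x g, ord (π x) (sG g) = ord x g)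
    (hsG : ∀ g, sG^[n] g = g)
    (hU : IsDefined (delta (MonoidHom.toAdditive sU)) (nrm (MonoidHom.toAdditive sU) n)) :
    IsDefined (delta (MonoidHom.toAdditive sG)) (nrm (MonoidHom.toAdditive sG) n) ∧
      hcyc (MonoidHom.toAdditive sG) n =
        hcyc (MonoidHom.toAdditive sU) n * ∏ y, (mult p n y : ℚ) := by
  refine hcyc_of_vals_add (MonoidHom.toAdditive φ) (valHom ord) (MonoidHom.toAdditive sU)
    (MonoidHom.toAdditive sG) n hn π p hπ hp hsurj htrans hφ ?_ ?_ hφs ?_ ?_ hU
  · intro f
    obtain ⟨g, hg⟩ := hord f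
    refine ⟨Additive.ofMul g, ?_⟩
    ext x
    rw [valHom_apply, toMul_ofMul, hg]
    rfl
  · ext g
    rw [AddMonoidHom.mem_ker]
    constructor
    · rintro ⟨u, rfl⟩
      ext x
      have := (hex (φ u.toMul)).mp ⟨u.toMul, rfl⟩ x
      rw [valHom_apply]
      show Multiplicative.toAdd (ord x (φ u.toMul)) = 0
      rw [this]
      rfl
    · intro h
      have h1 : ∀ x, ord x g.toMul = 1 := by
        intro x
        have := congrFun h x
        rw [valHom_apply] at this
        exact this
      obtain ⟨u, hu⟩ := (hex g.toMul).mpr h1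
      exact ⟨Additive.ofMul u, hu⟩
  · intro g
    ext x
    rw [permHom_apply, valHom_apply, valHom_apply]
    show Multiplicative.toAdd (ord x (sG g.toMul)) = _
    conv_lhs => rw [← π.apply_symm_apply x, hords]
  · intro g
    have : ∀ (i : ℕ) (x : Additive G),
        (MonoidHom.toAdditive sG)^[i] x = Additive.ofMul (sG^[i] x.toMul) := by
      intro i
      induction i with
      | zero => intro x; rfl
      | succ i ih =>
        intro x
        rw [Function.iterate_succ_apply, ih, Function.iterate_succ_apply]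
        rfl
    rw [this, hsG]
    rfl

end Mul

end Fermat.Agent.CFT.C4.Semilocal
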