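import Mathlib
import Fermat.Agent.CFT.Semilocal.UnitsHerbrand
import Fermat.Agent.CFT.C4.SemilocalAbstract
import Fermat.Agent.CFT.Dict.Places

/-!
# PROJECT C, slice C4 (first inequality), part (I1): the Herbrand quotient of `(L ⊗ ℚ_q)ˣ`

`L/K` cyclic of degree `n = k + 1` with generator `g`, `q` a rational prime.  Then
`h((L ⊗ ℚ_q)ˣ) = ∏_{v ∣ q} n / #{w ∣ v}` (product over the primes `v` of `K` over `q`):
combine the valuation sequence `1 → U_q(L) → (L ⊗ ℚ_q)ˣ → ℤ^{w ∣ q} → 0` of the dictionary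
(`Dict/Valuation`, `Dict/Places`) with `h(U_q(L)) = 1` (`Semilocal/UnitsHerbrand`) and the
Herbrand quotient of a permutation lattice (`C4/SemilocalAbstract`).
-/

set_option autoImplicit false
set_option linter.unusedSectionVars false

open scoped NumberField

open Fermat.Agent.CFT.Herbrand Fermat.Agent.CFT.HerbrandPerm Fermat.Agent.CFT.Idele
  Fermat.Agent.CFT.Dict

noncomputable section

namespace Fermat.Agent.CFT.C4.SemilocalHerbrand

variable {K L : Type} [Field K] [Field L] [NumberField K] [NumberField L] [Algebra K L]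
  (q : Nat.Primes) (g : L ≃ₐ[K] L) (k : ℕ)

/-- the two models of the action on the integral local units agree -/
theorem semilocal_autUnits_eq (τ : L ≃ₐ[ℚ] L) :
    Fermat.Agent.CFT.Semilocal.autUnits q τ = autIntUnits τ q := by
  ext v
  rw [Fermat.Agent.CFT.Semilocal.coe_autUnits, autIntUnits_val, autUnits_apply]

theorem iterate_autUnits (τ : L ≃ₐ[ℚ] L) (j : ℕ) (u : (Loc L q)ˣ) :
    (autUnits τ q)^[j] u = autUnits (τ ^ j) q u := by
  induction j with
  | zero => rw [Function.iterate_zero, id, pow_zero, autUnits_one]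
  | succ j ih => rw [Function.iterate_succ_apply', ih, pow_succ', autUnits_mul]

/-- **`h(U_q(L)) = 1`** for the action `autIntUnits` of the idele model -/
theorem hcyc_autIntUnits [IsGalois K L] (hk : orderOf g = k + 1)
    (hgen : ∀ τ : L ≃ₐ[K] L, τ ∈ Subgroup.zpowers g) :
    IsDefined (delta (MonoidHom.toAdditive (autIntUnits (g.restrictScalars ℚ) q)))
        (nrm (MonoidHom.toAdditive (autIntUnits (g.restrictScalars ℚ) q)) (k + 1)) ∧
      hcyc (MonoidHom.toAdditive (autIntUnits (g.restrictScalars ℚ) q)) (k + 1) = 1 := by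
  have h := Fermat.Agent.CFT.Semilocal.hcyc_sigmaU q g k hk hgen
  rw [Fermat.Agent.CFT.Semilocal.sigmaU, semilocal_autUnits_eq] at h
  exact h

/-- **`h((L ⊗ ℚ_q)ˣ) = ∏_{v ∣ q} n_v`**, `n_v = n / #{w ∣ v}`. -/
theorem hcyc_autUnits [IsGalois K L] (hk : orderOf g = k + 1)
    (hgen : ∀ τ : L ≃ₐ[K] L, τ ∈ Subgroup.zpowers g) :
    IsDefined (delta (MonoidHom.toAdditive (autUnits (g.restrictScalars ℚ) q)))
        (nrm (MonoidHom.toAdditive (autUnits (g.restrictScalars ℚ) q)) (k + 1)) ∧
      hcyc (MonoidHom.toAdditive (autUnits (g.restrictScalars ℚ) q)) (k + 1) =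
        ∏ y : PrimeOver (q : ℕ) (𝓞 K),
          (mult (PrimeOver.under : PrimeOver (q : ℕ) (𝓞 L) → PrimeOver (q : ℕ) (𝓞 K))
            (k + 1) y : ℚ) := by
  obtain ⟨hU1, hU2⟩ := hcyc_autIntUnits q g k hk hgen
  have hgk : g ^ (k + 1) = 1 := by rw [← hk]; exact pow_orderOf_eq_one g
  have key := Fermat.Agent.CFT.C4.Semilocal.hcyc_of_vals (intUnits L q).subtype
    (fun v : PrimeOver (q : ℕ) (𝓞 L) => v.ordAt)
    (autIntUnits (g.restrictScalars ℚ) q) (autUnits (g.restrictScalars ℚ) q) (k + 1)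
    (Nat.succ_pos k) (PrimeOver.perm (g.restrictScalars ℚ))
    (PrimeOver.under : PrimeOver (q : ℕ) (𝓞 L) → PrimeOver (q : ℕ) (𝓞 K))
    (PrimeOver.perm_pow_apply_of_pow_eq_one g (k + 1) hgk)
    (fun v => PrimeOver.under_smul g v)
    PrimeOver.under_surjective
    (fun v w h => PrimeOver.exists_perm_pow_eq_of_under_eq hgen h)
    (Subgroup.subtype_injective _)
    PrimeOver.exists_forall_ordAt_eq
    (fun u => by
      rw [← mem_intUnits_iff_forall_ordAt]
      constructor
      · rintro ⟨u', rfl⟩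
        exact u'.2
      · intro h
        exact ⟨⟨u, h⟩, rfl⟩)
    (fun u => rfl)
    (fun v u => PrimeOver.ordAt_smul_autUnits (g.restrictScalars ℚ) v u)
    (fun u => by
      rw [iterate_autUnits, PrimeOver.restrictScalars_pow, hgk]
      exact autUnits_one q u)
    hU1
  rw [hU2, one_mul] at key
  exact key

end Fermat.Agent.CFT.C4.SemilocalHerbrand
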