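import Mathlib
import Fermat.Agent.CFT.C4.AbstractMul
import Fermat.Agent.CFT.C4.IdeleFactor
import Fermat.Agent.CFT.C4.SemilocalHerbrand
import Fermat.Agent.CFT.Semilocal.Unramified
import Fermat.Agent.CFT.Idele.Global
import Fermat.Agent.CFT.Dict.Fibres
import Fermat.Agent.CFT.SUnit.TUnitsHerbrand

/-!
# PROJECT C, slice C4: the FIRST INEQUALITY for cyclic extensions of number fields

`L/K` a cyclic extension of number fields of degree `n`, unramified at the infinite places (e.g. of
odd degree), `g` a generator of `Gal(L/K)`, `C L = J L / Lˣ` the (finite) idele class group of the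
tensor model (`CFT/Idele`).  Then for the action `sigmaC g` of `g` on `C L`:

* the Herbrand quotient `h(C_L)` is defined and equals `n`;
* hence `|Ĥ⁰(G, C_L)| = n · |Ĥ⁻¹(G, C_L)|`, in particular `[C_K : N C_L] ≥ n`.

Proof: `C4/AbstractMul.first_inequality_mul` applied to `J_L = Lˣ · J_{L,T}` (`Idele/Global`), with
`h(J_{L,T}) = ∏_{q ∈ T} h((L ⊗ ℚ_q)ˣ)` (`C4/IdeleFactor`, using `Ĥ⁰ = Ĥ⁻¹ = 0` for the local units at
`q ∤ discr L`, `Semilocal/Unramified`), `h((L ⊗ ℚ_q)ˣ) = ∏_{v ∣ q} n_v` (`C4/SemilocalHerbrand`) and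
`h(T-units) · n = ∏_{v ∈ T} n_v` (`SUnit/TUnitsHerbrand`), glued by `Dict/Fibres.prod_mult_under`.
-/

set_option autoImplicit false
set_option linter.unusedSectionVars false

open scoped NumberField

noncomputable section

namespace Fermat.Agent.CFT.C4.FirstInequality

open Module IsDedekindDomain
open Fermat.Agent.CFT.Herbrand Fermat.Agent.CFT.Idele Fermat.Agent.CFT.Dict
  Fermat.Agent.CFT.C3.ClassGen Fermat.Agent.CFT.C3.SUnitHerbrand
  Fermat.Agent.CFT.Local.CyclicVanish

/-! ### Vanishing in terms of the indices -/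

section Abstract

variable {A : Type*} [AddCommGroup A]

theorem idx_delta_nrm_eq_one_of_v0On (σ : A →+ A) (n : ℕ) (h : V0On σ n ⊤) :
    idx (delta σ) (nrm σ n) = 1 := by
  rw [idx, AddSubgroup.relIndex_eq_one]
  intro a ha
  rw [AddMonoidHom.mem_ker, delta_apply, sub_eq_zero] at ha
  obtain ⟨b, -, hb⟩ := h a trivial ha
  exact ⟨b, hb⟩

theorem idx_nrm_delta_eq_one_of_v1On (σ : A →+ A) (n : ℕ) (h : V1On σ n ⊤) :
    idx (nrm σ n) (delta σ) = 1 := by
  rw [idx, AddSubgroup.relIndex_eq_one]
  intro a ha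
  rw [AddMonoidHom.mem_ker] at ha
  obtain ⟨b, -, hb⟩ := h a trivial ha
  exact ⟨b, by rw [delta_apply]; exact hb⟩

end Abstract

variable {K L : Type} [Field K] [Field L] [NumberField K] [NumberField L] [Algebra K L]

/-- the action of `γ` on the idele class group, as an endomorphism -/
def sigmaC (γ : L ≃ₐ[ℚ] L) : C L →* C L := MulDistribMulAction.toMonoidHom (C L) γ

@[simp] theorem sigmaC_apply (γ : L ≃ₐ[ℚ] L) (c : C L) : sigmaC γ c = γ • c := rfl

/-- the action of `γ` on the ideles, as an endomorphism -/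
def sigmaJ (γ : L ≃ₐ[ℚ] L) : J L →* J L := MulDistribMulAction.toMonoidHom (J L) γ

@[simp] theorem sigmaJ_apply (γ : L ≃ₐ[ℚ] L) (x : J L) : sigmaJ γ x = γ • x := rfl

theorem sigmaJ_iterate (γ : L ≃ₐ[ℚ] L) (j : ℕ) (x : J L) : (sigmaJ γ)^[j] x = γ ^ j • x := by
  induction j generalizing x with
  | zero => rw [Function.iterate_zero, id, pow_zero, one_smul]
  | succ j ih => rw [Function.iterate_succ_apply, ih, pow_succ, mul_smul]; rfl

/-- the primes dividing the discriminant -/
theorem finite_setOf_dvd_discr (L : Type) [Field L] [NumberField L] :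
    {q : Nat.Primes | ((q : ℕ) : ℤ) ∣ NumberField.discr L}.Finite :=
  finite_setOf_int_dvd (NumberField.discr_ne_zero L)

/-! ### The ingredients -/

section Main

variable [IsGalois K L] (g : L ≃ₐ[K] L)

theorem pow_finrank_eq_one : g ^ finrank K L = 1 := by
  rw [← IsGalois.card_aut_eq_finrank]
  exact pow_card_eq_one'

theorem orderOf_eq_finrank (hgen : ∀ τ : L ≃ₐ[K] L, τ ∈ Subgroup.zpowers g) :
    orderOf g = finrank K L := by
  rw [orderOf_eq_card_of_forall_mem_zpowers hgen, IsGalois.card_aut_eq_finrank]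

/-- the inclusion of the `T`-units (places of `L` above a finite set `T` of rational primes) into
the ideles -/
def iotaU (T : Finset Nat.Primes) :
    Fermat.Agent.CFT.C3.SUnitRank.TUnits L (above K L (aboveQ K T)) →* J L :=
  (diag L).comp (Subgroup.subtype _)

theorem iotaU_injective (T : Finset Nat.Primes) : Function.Injective (iotaU (K := K) (L := L) T) :=
  (diag_injective L).comp (Subgroup.subtype_injective _)

theorem range_iotaU (T : Finset Nat.Primes) :
    (iotaU (K := K) (L := L) T).range =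
      (diag L).range ⊓ (JTsub L (T : Set Nat.Primes)).subtype.range := by
  rw [Subgroup.range_subtype, range_diag_inf_JTsub, TUnits_eq, ← above_aboveQ K L T, iotaU,
    MonoidHom.range_comp, Subgroup.range_subtype]

theorem iotaU_galT (T : Finset Nat.Primes) (u : Fermat.Agent.CFT.C3.SUnitRank.TUnits L
    (above K L (aboveQ K T))) :
    iotaU T (galT K L (aboveQ K T) g u) = sigmaJ (g.restrictScalars ℚ) (iotaU T u) := by
  rw [sigmaJ_apply, iotaU, MonoidHom.comp_apply, MonoidHom.comp_apply, smul_diag]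
  rfl

end Main

/-! ### The first inequality -/

section Final

variable [IsGalois K L] (g : L ≃ₐ[K] L)

open Fermat.Agent.CFT.C4.IdeleFactor Fermat.Agent.CFT.C4.SemilocalHerbrand in
/-- the Herbrand quotient of `J_{L,T}` for `T` containing the primes dividing the discriminant -/
theorem hcyc_actJT_eq (hgen : ∀ τ : L ≃ₐ[K] L, τ ∈ Subgroup.zpowers g) (T : Finset Nat.Primes)
    (hT : ∀ q : Nat.Primes, ((q : ℕ) : ℤ) ∣ NumberField.discr L → q ∈ T) :
    IsDefined (delta (MonoidHom.toAdditive (actJT T (g.restrictScalars ℚ))))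
        (nrm (MonoidHom.toAdditive (actJT T (g.restrictScalars ℚ))) (finrank K L)) ∧
      hcyc (MonoidHom.toAdditive (actJT T (g.restrictScalars ℚ))) (finrank K L) =
        ∏ v ∈ aboveQ K T,
          ((finrank K L / (Ideal.primesOver v.asIdeal (𝓞 L)).ncard : ℕ) : ℚ) := by
  obtain ⟨k, hk⟩ : ∃ k, finrank K L = k + 1 :=
    Nat.exists_eq_succ_of_ne_zero (finrank_pos (R := K) (M := L)).ne'
  have hord : orderOf g = k + 1 := by rw [orderOf_eq_finrank g hgen, hk]
  rw [hk]
  have h01 : ∀ q : Nat.Primes, q ∉ T →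
      V0On (MonoidHom.toAdditive (autIntUnits (g.restrictScalars ℚ) q)) (k + 1) ⊤ ∧
        V1On (MonoidHom.toAdditive (autIntUnits (g.restrictScalars ℚ) q)) (k + 1) ⊤ := by
    intro q hq
    have h := Fermat.Agent.CFT.Semilocal.v0On_v1On_sigmaU q g k hord (fun h => hq (hT q h))
    rw [Fermat.Agent.CFT.Semilocal.sigmaU, semilocal_autUnits_eq] at h
    exact h
  obtain ⟨h1, h2⟩ := hcyc_actJT T (g.restrictScalars ℚ) (k + 1)
    (fun q hq => idx_delta_nrm_eq_one_of_v0On _ _ (h01 q hq).1)
    (fun q hq => idx_nrm_delta_eq_one_of_v1On _ _ (h01 q hq).2)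
    (fun q _ => (hcyc_autUnits q g k hord hgen).1)
  refine ⟨h1, ?_⟩
  rw [h2, ← prod_mult_under K T (k + 1)]
  exact Finset.prod_congr rfl fun q _ => (hcyc_autUnits q g k hord hgen).2

open Fermat.Agent.CFT.C4.IdeleFactor Fermat.Agent.CFT.SUnit.TUnitsHerbrand in
/-- **The first inequality** (Herbrand quotient form): for `L/K` cyclic of degree `n` with generator
`g`, unramified at the infinite places, the Herbrand quotient of the idele class group `C L` is
defined and equal to `n`; consequently `|Ĥ⁰(G, C_L)| = n · |Ĥ⁻¹(G, C_L)|`. -/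
theorem first_inequality [IsUnramifiedAtInfinitePlaces K L]
    (hgen : ∀ τ : L ≃ₐ[K] L, τ ∈ Subgroup.zpowers g) :
    IsDefined (delta (MonoidHom.toAdditive (sigmaC (g.restrictScalars ℚ))))
        (nrm (MonoidHom.toAdditive (sigmaC (g.restrictScalars ℚ))) (finrank K L)) ∧
      hcyc (MonoidHom.toAdditive (sigmaC (g.restrictScalars ℚ))) (finrank K L) = finrank K L ∧
      idx (delta (MonoidHom.toAdditive (sigmaC (g.restrictScalars ℚ))))
          (nrm (MonoidHom.toAdditive (sigmaC (g.restrictScalars ℚ))) (finrank K L)) =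
        finrank K L * idx (nrm (MonoidHom.toAdditive (sigmaC (g.restrictScalars ℚ))) (finrank K L))
          (delta (MonoidHom.toAdditive (sigmaC (g.restrictScalars ℚ)))) := by
  classical
  obtain ⟨T₀, hT₀⟩ := exists_finset_sup_eq_top (L := L)
  set T : Finset Nat.Primes := T₀ ∪ (finite_setOf_dvd_discr L).toFinset with hTdef
  have hTd : ∀ q : Nat.Primes, ((q : ℕ) : ℤ) ∣ NumberField.discr L → q ∈ T := by
    intro q hq
    rw [hTdef, Finset.mem_union, Set.Finite.mem_toFinset]
    exact Or.inr hq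
  have hsup : (diag L).range ⊔ JTsub L (T : Set Nat.Primes) = ⊤ := by
    apply hT₀
    rw [hTdef]
    exact Finset.coe_subset.mpr Finset.subset_union_left
  obtain ⟨hdT, hhT⟩ := hcyc_actJT_eq g hgen T hTd
  obtain ⟨hdU, hhU⟩ := herbrand_TUnits_cyclic_of_isUnramified K L (aboveQ K T) hgen
  refine Fermat.Agent.CFT.C4.AbstractMul.first_inequality_mul (sigmaJ (g.restrictScalars ℚ))
    (finrank K L) ?_ (diag L) (Units.map ((g.restrictScalars ℚ : L ≃ₐ[ℚ] L) : L →* L)) ?_
    (iotaU T) (iotaU_injective T) (galT K L (aboveQ K T) g) (iotaU_galT g T)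
    (JTsub L (T : Set Nat.Primes)).subtype (Subgroup.subtype_injective _)
    (actJT T (g.restrictScalars ℚ)) (fun _ => rfl) (range_iotaU T) ?_
    (toC L) (toC_surjective L) (QuotientGroup.ker_mk' _) (sigmaC (g.restrictScalars ℚ))
    (fun _ => rfl) hdU hdT ?_
  · intro x
    rw [sigmaJ_iterate, PrimeOver.restrictScalars_pow, pow_finrank_eq_one]
    exact one_smul _ x
  · intro a
    rw [sigmaJ_apply, smul_diag]
  · rw [Subgroup.range_subtype]
    exact hsup
  · rw [hhT]
    exact hhU

/-- **The first inequality** for cyclic extensions of odd degree. -/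
theorem first_inequality_of_odd (hodd : Odd (finrank K L))
    (hgen : ∀ τ : L ≃ₐ[K] L, τ ∈ Subgroup.zpowers g) :
    IsDefined (delta (MonoidHom.toAdditive (sigmaC (g.restrictScalars ℚ))))
        (nrm (MonoidHom.toAdditive (sigmaC (g.restrictScalars ℚ))) (finrank K L)) ∧
      hcyc (MonoidHom.toAdditive (sigmaC (g.restrictScalars ℚ))) (finrank K L) = finrank K L ∧
      idx (delta (MonoidHom.toAdditive (sigmaC (g.restrictScalars ℚ))))
          (nrm (MonoidHom.toAdditive (sigmaC (g.restrictScalars ℚ))) (finrank K L)) =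
        finrank K L * idx (nrm (MonoidHom.toAdditive (sigmaC (g.restrictScalars ℚ))) (finrank K L))
          (delta (MonoidHom.toAdditive (sigmaC (g.restrictScalars ℚ)))) := by
  have : IsUnramifiedAtInfinitePlaces K L :=
    IsUnramifiedAtInfinitePlaces_of_odd_finrank hodd
  exact first_inequality g hgen

end Final

end Fermat.Agent.CFT.C4.FirstInequality
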