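import Mathlib
import Fermat.Agent.CFT.C4.FirstInequality
import Fermat.Agent.CFT.C6.IdeleNorm

/-!
# PROJECT C, slice C4: the first inequality in NORM INDEX form

`L/K` a cyclic extension of number fields of degree `n` unramified at the infinite places (e.g. of
odd degree), with generator `g`.  With the Galois norm `normC K L : C L →* C K` on the idele class
groups (`C6/IdeleNorm`) and Galois descent `(C L)^G = C K` (`Idele/ClassDescent`) the first
inequality of `C4/FirstInequality` reads

  `[C_K : N_{L/K} C_L] = n · |Ĥ⁻¹(G, C_L)|`,  finite; in particular `n ∣ [C_K : N C_L]`,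

and the same for `[J_K : Kˣ · N_{L/K} J_L]`.
-/

set_option autoImplicit false
set_option linter.unusedSectionVars false

open scoped NumberField

noncomputable section

namespace Fermat.Agent.CFT.C4.FirstInequalityNorm

open Module
open Fermat.Agent.CFT.Herbrand Fermat.Agent.CFT.Idele Fermat.Agent.CFT.C4.FirstInequality
  Fermat.Agent.CFT.C6.IdeleNorm

/-! ### Products over a finite cyclic group -/

theorem prod_univ_eq_prod_range_pow {G M : Type*} [Group G] [Fintype G] [CommMonoid M] (g : G)
    (hgen : ∀ τ : G, τ ∈ Subgroup.zpowers g) (f : G → M) :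
    ∏ σ : G, f σ = ∏ j ∈ Finset.range (orderOf g), f (g ^ j) := by
  classical
  rw [← IsCyclic.image_range_orderOf hgen, Finset.prod_image]
  intro i hi j hj h
  exact pow_injOn_Iio_orderOf (Finset.mem_range.mp hi) (Finset.mem_range.mp hj) h

variable {K L : Type} [Field K] [Field L] [NumberField K] [NumberField L] [Algebra K L]
  [IsGalois K L] (g : L ≃ₐ[K] L)

theorem sigmaC_iterate (γ : L ≃ₐ[ℚ] L) (j : ℕ) (c : C L) : (sigmaC γ)^[j] c = γ ^ j • c := by
  induction j generalizing c with
  | zero => rw [Function.iterate_zero, id, pow_zero, one_smul]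
  | succ j ih => rw [Function.iterate_succ_apply, ih, pow_succ, mul_smul]; rfl

/-- the norm `1 + g + ⋯ + g^(n-1)` on `C L` is the Galois norm to `C K` followed by `C K → C L` -/
theorem nrm_sigmaC (hgen : ∀ τ : L ≃ₐ[K] L, τ ∈ Subgroup.zpowers g) (c : Additive (C L)) :
    nrm (MonoidHom.toAdditive (sigmaC (g.restrictScalars ℚ))) (finrank K L) c =
      Additive.ofMul (C.map (inclHom K L) (normC K L c.toMul)) := by
  rw [nrm_apply, map_normC, prod_univ_eq_prod_range_pow g hgen, orderOf_eq_finrank g hgen,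
    ofMul_prod]
  refine Finset.sum_congr rfl fun j _ => ?_
  rw [Fermat.Agent.CFT.C4.AbstractMul.toAdditive_iterate, sigmaC_iterate, map_pow]
  rfl

theorem range_nrm_sigmaC (hgen : ∀ τ : L ≃ₐ[K] L, τ ∈ Subgroup.zpowers g) :
    (nrm (MonoidHom.toAdditive (sigmaC (g.restrictScalars ℚ))) (finrank K L)).range =
      Subgroup.toAddSubgroup ((normC K L).range.map (C.map (inclHom K L))) := by
  ext c
  constructor
  · rintro ⟨d, rfl⟩
    rw [nrm_sigmaC g hgen]
    exact ⟨_, ⟨d.toMul, rfl⟩, rfl⟩
  · rintro ⟨_, ⟨d, rfl⟩, h⟩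
    refine ⟨Additive.ofMul d, ?_⟩
    rw [nrm_sigmaC g hgen]
    exact congrArg Additive.ofMul h

/-- Galois descent: the `g`-invariants of `C L` are the image of `C K` -/
theorem ker_delta_sigmaC (hgen : ∀ τ : L ≃ₐ[K] L, τ ∈ Subgroup.zpowers g) :
    (delta (MonoidHom.toAdditive (sigmaC (g.restrictScalars ℚ)))).ker =
      Subgroup.toAddSubgroup ((⊤ : Subgroup (C K)).map (C.map (inclHom K L))) := by
  ext c
  rw [AddMonoidHom.mem_ker, delta_apply, sub_eq_zero]
  constructor
  · intro h
    have hg : galHom K L g • c.toMul = c.toMul := congrArg Additive.toMul h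
    have hall : ∀ σ : L ≃ₐ[K] L, galHom K L σ • c.toMul = c.toMul := by
      intro σ
      have hle : Subgroup.zpowers g ≤
          (MulAction.stabilizer (L ≃ₐ[ℚ] L) c.toMul).comap (galHom K L) := by
        rw [Subgroup.zpowers_le]
        exact hg
      exact hle (hgen σ)
    obtain ⟨d, hd⟩ := C.mem_range_map_inclHom K L c.toMul hall
    exact ⟨d, trivial, hd⟩
  · rintro ⟨d, -, hd⟩
    have hd' : c = Additive.ofMul (C.map (inclHom K L) d) := (congrArg Additive.ofMul hd).symm
    rw [hd']
    exact congrArg Additive.ofMul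
      (C.smul_map_of_fixes (inclHom K L) (galHom K L g) (galHom_inclHom K L g) d)

/-- `|Ĥ⁰(G, C_L)| = [C_K : N C_L]` -/
theorem idx_delta_nrm_sigmaC (hgen : ∀ τ : L ≃ₐ[K] L, τ ∈ Subgroup.zpowers g) :
    idx (delta (MonoidHom.toAdditive (sigmaC (g.restrictScalars ℚ))))
        (nrm (MonoidHom.toAdditive (sigmaC (g.restrictScalars ℚ))) (finrank K L)) =
      (normC K L).range.index := by
  rw [idx, range_nrm_sigmaC g hgen, ker_delta_sigmaC g hgen]
  have h1 : ∀ H K' : Subgroup (C L),
      (Subgroup.toAddSubgroup H).relIndex (Subgroup.toAddSubgroup K') = H.relIndex K' :=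
    fun _ _ => rfl
  rw [h1, Subgroup.relIndex_map_map_of_injective _ _ (C.map_inclHom_injective K L),
    Subgroup.relIndex_top_right]

/-- **First inequality, norm index form**: `[C_K : N_{L/K} C_L] = n · |Ĥ⁻¹(G, C_L)|`, and it is
finite (non-zero as a `Subgroup.index`). -/
theorem index_range_normC [IsUnramifiedAtInfinitePlaces K L]
    (hgen : ∀ τ : L ≃ₐ[K] L, τ ∈ Subgroup.zpowers g) :
    (normC K L).range.index ≠ 0 ∧
      (normC K L).range.index = finrank K L *
        idx (nrm (MonoidHom.toAdditive (sigmaC (g.restrictScalars ℚ))) (finrank K L))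
          (delta (MonoidHom.toAdditive (sigmaC (g.restrictScalars ℚ)))) := by
  obtain ⟨hd, -, h⟩ := first_inequality g hgen
  rw [idx_delta_nrm_sigmaC g hgen] at h
  refine ⟨?_, h⟩
  have := hd.1
  rwa [idx_delta_nrm_sigmaC g hgen] at this

/-- **First inequality**: `n ∣ [C_K : N_{L/K} C_L]` (and the index is finite). -/
theorem finrank_dvd_index_range_normC [IsUnramifiedAtInfinitePlaces K L]
    (hgen : ∀ τ : L ≃ₐ[K] L, τ ∈ Subgroup.zpowers g) :
    finrank K L ∣ (normC K L).range.index :=
  ⟨_, (index_range_normC g hgen).2⟩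

/-- **First inequality**: `n ≤ [C_K : N_{L/K} C_L] < ∞`. -/
theorem finrank_le_index_range_normC [IsUnramifiedAtInfinitePlaces K L]
    (hgen : ∀ τ : L ≃ₐ[K] L, τ ∈ Subgroup.zpowers g) :
    finrank K L ≤ (normC K L).range.index :=
  Nat.le_of_dvd (Nat.pos_of_ne_zero (index_range_normC g hgen).1)
    (finrank_dvd_index_range_normC g hgen)

/-- if moreover the second inequality `[C_K : N C_L] ≤ n` holds, then `[C_K : N C_L] = n` and
`Ĥ⁻¹(G, C_L) = 0` (hence `H¹(G, C_L) = 0`). -/
theorem index_eq_and_idx_eq_one_of_le [IsUnramifiedAtInfinitePlaces K L]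
    (hgen : ∀ τ : L ≃ₐ[K] L, τ ∈ Subgroup.zpowers g)
    (h2 : (normC K L).range.index ≤ finrank K L) :
    (normC K L).range.index = finrank K L ∧
      idx (nrm (MonoidHom.toAdditive (sigmaC (g.restrictScalars ℚ))) (finrank K L))
        (delta (MonoidHom.toAdditive (sigmaC (g.restrictScalars ℚ)))) = 1 := by
  obtain ⟨h0, h1⟩ := index_range_normC g hgen
  have hn : 0 < finrank K L := finrank_pos
  have he : (normC K L).range.index = finrank K L :=
    le_antisymm h2 (finrank_le_index_range_normC g hgen)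
  refine ⟨he, ?_⟩
  rw [he] at h1
  exact (Nat.eq_of_mul_eq_mul_left hn (by rw [mul_one]; exact h1)).symm

/-! ### Idele form -/

omit [IsGalois K L] in
theorem comap_toC_range_normC [IsGalois K L] :
    (normC K L).range.comap (toC K) = (diag K).range ⊔ (normJ K L).range := by
  ext x
  rw [Subgroup.mem_comap]
  constructor
  · rintro ⟨c, hc⟩
    obtain ⟨y, rfl⟩ := toC_surjective L c
    rw [normC_toC] at hc
    have h1 : toC K (x / normJ K L y) = 1 := by rw [map_div, hc, div_self']
    obtain ⟨a, ha⟩ := (toC_eq_one_iff K _).mp h1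
    have : x = diag K a * normJ K L y := by rw [ha, div_mul_cancel]
    rw [this]
    exact Subgroup.mul_mem_sup ⟨a, rfl⟩ ⟨y, rfl⟩
  · intro hx
    rw [Subgroup.mem_sup] at hx
    obtain ⟨_, ⟨a, rfl⟩, _, ⟨y, rfl⟩, rfl⟩ := hx
    refine ⟨toC L y, ?_⟩
    rw [normC_toC, map_mul, toC_diag, one_mul]

/-- `[J_K : Kˣ · N J_L] = [C_K : N C_L]` -/
theorem index_sup_range_normJ :
    ((diag K).range ⊔ (normJ K L).range).index = (normC K L).range.index := by
  rw [← comap_toC_range_normC, Subgroup.index_comap_of_surjective _ (toC_surjective K)]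

/-- **First inequality, idele form**: `n ∣ [J_K : Kˣ · N_{L/K} J_L]`, and the index is finite. -/
theorem finrank_dvd_index_sup_range_normJ [IsUnramifiedAtInfinitePlaces K L]
    (hgen : ∀ τ : L ≃ₐ[K] L, τ ∈ Subgroup.zpowers g) :
    ((diag K).range ⊔ (normJ K L).range).index ≠ 0 ∧
      finrank K L ∣ ((diag K).range ⊔ (normJ K L).range).index := by
  rw [index_sup_range_normJ]
  exact ⟨(index_range_normC g hgen).1, finrank_dvd_index_range_normC g hgen⟩

end Fermat.Agent.CFT.C4.FirstInequalityNorm
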