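import Mathlib
import Fermat.Agent.CFT.C4.FirstInequalityNorm

/-!
# PROJECT C, slice C4 → C5: the first inequality for Kummer extensions of prime degree

Input `(FI)` of the index computation of the second inequality (`C5/IndexAbstract`): for a number
field `K ∋ μ_p` (`p` an odd prime) and `y ∈ K` not a `p`-th power there is a number field
`M = K(y^{1/p})`, Galois of degree `p` over `K`, and `Kˣ · N_{M/K} J_M ≠ J_K`.

* `sup_range_normJ_ne_top`, `exists_notMem_sup_range_normJ`: for `M/K` Galois of odd prime degree;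
* `exists_kummer_extension`: the number field `K(y^{1/p})` (model: `AdjoinRoot (X ^ p - C y)`);
* `exists_kummer_extension_notMem`: both together.
-/

set_option autoImplicit false
set_option linter.unusedSectionVars false

open scoped NumberField

noncomputable section

namespace Fermat.Agent.CFT.C4.FirstInequalityKummer

open Module Polynomial
open Fermat.Agent.CFT.Idele Fermat.Agent.CFT.C4.FirstInequalityNorm Fermat.Agent.CFT.C6.IdeleNorm

variable {K : Type} [Field K] [NumberField K]

/-- **First inequality**: for `M/K` Galois of odd prime degree, `Kˣ · N J_M ≠ J_K`. -/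
theorem sup_range_normJ_ne_top {M : Type} [Field M] [NumberField M] [Algebra K M] [IsGalois K M]
    {p : ℕ} (hp : p.Prime) (hp2 : p ≠ 2) (hdeg : finrank K M = p) :
    (diag K).range ⊔ (normJ K M).range ≠ ⊤ := by
  have hcard : Nat.card (M ≃ₐ[K] M) = p := by rw [IsGalois.card_aut_eq_finrank, hdeg]
  haveI : Fact p.Prime := ⟨hp⟩
  have hcyc : IsCyclic (M ≃ₐ[K] M) := isCyclic_of_prime_card hcard
  obtain ⟨g, hg⟩ := hcyc.exists_generator
  have hodd : Odd (finrank K M) := by
    rw [hdeg]
    exact hp.odd_of_ne_two hp2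
  haveI : IsUnramifiedAtInfinitePlaces K M := IsUnramifiedAtInfinitePlaces_of_odd_finrank hodd
  obtain ⟨-, hdvd⟩ := finrank_dvd_index_sup_range_normJ g hg
  intro htop
  rw [htop, Subgroup.index_top, hdeg, Nat.dvd_one] at hdvd
  exact hp.one_lt.ne' hdvd

theorem exists_notMem_sup_range_normJ {M : Type} [Field M] [NumberField M] [Algebra K M]
    [IsGalois K M] {p : ℕ} (hp : p.Prime) (hp2 : p ≠ 2) (hdeg : finrank K M = p) :
    ∃ x : J K, x ∉ (diag K).range ⊔ (normJ K M).range := by
  by_contra h
  exact sup_range_normJ_ne_top hp hp2 hdeg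
    (eq_top_iff.mpr fun x _ => by_contra fun hx => h ⟨x, hx⟩)

/-- **The Kummer extension `K(y^{1/p})` as a number field.** -/
theorem exists_kummer_extension {p : ℕ} (hp : p.Prime) (hζ : (primitiveRoots p K).Nonempty)
    (y : K) (hy : ∀ b : K, b ^ p ≠ y) :
    ∃ (M : Type) (_ : Field M) (_ : NumberField M) (_ : Algebra K M),
      IsGalois K M ∧ finrank K M = p ∧ ∃ α : M, α ^ p = algebraMap K M y := by
  have H : Irreducible (X ^ p - C y : K[X]) := X_pow_sub_C_irreducible_of_prime hp hy
  haveI : Fact (Irreducible (X ^ p - C y : K[X])) := ⟨H⟩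
  haveI : IsSplittingField K (AdjoinRoot (X ^ p - C y : K[X])) (X ^ p - C y) :=
    isSplittingField_AdjoinRoot_X_pow_sub_C hζ H
  haveI : FiniteDimensional K (AdjoinRoot (X ^ p - C y : K[X])) :=
    Polynomial.IsSplittingField.finiteDimensional _ (X ^ p - C y : K[X])
  haveI : CharZero (AdjoinRoot (X ^ p - C y : K[X])) :=
    charZero_of_injective_algebraMap (algebraMap K (AdjoinRoot (X ^ p - C y : K[X]))).injective
  haveI : FiniteDimensional ℚ (AdjoinRoot (X ^ p - C y : K[X])) :=
    Module.Finite.trans K (AdjoinRoot (X ^ p - C y : K[X]))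
  refine ⟨AdjoinRoot (X ^ p - C y : K[X]), inferInstance, ⟨⟩, inferInstance,
    isGalois_of_isSplittingField_X_pow_sub_C hζ H _,
    finrank_of_isSplittingField_X_pow_sub_C hζ H _, AdjoinRoot.root _, ?_⟩
  have h := AdjoinRoot.eval₂_root (X ^ p - C y : K[X])
  rw [eval₂_sub, eval₂_pow, eval₂_X, eval₂_C, sub_eq_zero] at h
  exact h

/-- **Input (FI) of the second inequality**: for `K ∋ μ_p` (`p` odd) and `y ∈ K` not a `p`-th
power, the Kummer extension `M = K(y^{1/p})` has `Kˣ · N_{M/K} J_M ≠ J_K`. -/
theorem exists_kummer_extension_notMem {p : ℕ} (hp : p.Prime) (hp2 : p ≠ 2)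
    (hζ : (primitiveRoots p K).Nonempty) (y : K) (hy : ∀ b : K, b ^ p ≠ y) :
    ∃ (M : Type) (_ : Field M) (_ : NumberField M) (_ : Algebra K M) (_ : IsGalois K M),
      finrank K M = p ∧ (∃ α : M, α ^ p = algebraMap K M y) ∧
        ∃ x : J K, x ∉ (diag K).range ⊔ (normJ K M).range := by
  obtain ⟨M, _, _, _, hgal, hdeg, hα⟩ := exists_kummer_extension hp hζ y hy
  exact ⟨M, inferInstance, inferInstance, inferInstance, hgal, hdeg, hα,
    exists_notMem_sup_range_normJ hp hp2 hdeg⟩

end Fermat.Agent.CFT.C4.FirstInequalityKummer
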