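import Mathlib
import Fermat.Agent.CFT.C4.FirstInequalityNorm
import Fermat.Agent.CFT.HerbrandBridge
import Fermat.Agent.CFT.Idele.Rep

/-!
# PROJECT C, slice C4: the first inequality in COHOMOLOGICAL form

`L/K` a cyclic extension of number fields of degree `n`, `A := Rep.res (galHom K L) (repC L)` the
idele class group of `L` as a `Gal(L/K)`-module (`= C5/ClassDevissage.classRep K L`).  Via
`HerbrandBridge` (`#H² = [ker (σ - 1) : im N]`, `#H¹ = [ker N : im (σ - 1)]` for a finite cyclic
group):

* `card_H2_eq`, `card_H1_eq`: `#H²(G, C_L) = [C_K : N C_L]`, `#H¹(G, C_L) = |Ĥ⁻¹|`;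
* `first_inequality_rep`: if `L/K` is unramified at infinity, `H¹`, `H²` are finite and
  `#H²(G, C_L) = n · #H¹(G, C_L)`;
* `h1_h2_of_index_le`: with the second inequality `[J_K : Kˣ N J_L] ≤ n` moreover `H¹(G, C_L) = 0`
  and `#H²(G, C_L) = n`;
* `h1_h2_of_prime_degree`: the same for `L/K` Galois of odd prime degree (no generator needed).
-/

set_option autoImplicit false
set_option linter.unusedSectionVars false

open scoped NumberField

noncomputable section

namespace Fermat.Agent.CFT.C4.FirstInequalityRep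

open Module
open Fermat.Agent.CFT.Herbrand Fermat.Agent.CFT.Idele Fermat.Agent.CFT.C4.FirstInequality
  Fermat.Agent.CFT.C4.FirstInequalityNorm Fermat.Agent.CFT.C6.IdeleNorm
  Fermat.Agent.CFT.HerbrandBridge

variable {K L : Type} [Field K] [Field L] [NumberField K] [NumberField L] [Algebra K L]
  [IsGalois K L] (g : L ≃ₐ[K] L)

/-- the commutative group structure on a cyclic Galois group -/
abbrev commGroupOfGen (hgen : ∀ τ : L ≃ₐ[K] L, τ ∈ Subgroup.zpowers g) :
    CommGroup (L ≃ₐ[K] L) :=
  { (inferInstance : Group (L ≃ₐ[K] L)) with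
    mul_comm := fun a b => by
      obtain ⟨i, rfl⟩ := Subgroup.mem_zpowers_iff.mp (hgen a)
      obtain ⟨j, rfl⟩ := Subgroup.mem_zpowers_iff.mp (hgen b)
      exact zpow_mul_comm g i j }

theorem card_gal : Fintype.card (L ≃ₐ[K] L) = finrank K L := by
  rw [← Nat.card_eq_fintype_card, IsGalois.card_aut_eq_finrank]

section Cyclic

variable (hgen : ∀ τ : L ≃ₐ[K] L, τ ∈ Subgroup.zpowers g)

include hgen in
theorem card_H2_eq :
    Nat.card (groupCohomology (Rep.res (galHom K L) (repC L)) 2) = (normC K L).range.index := by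
  letI : CommGroup (L ≃ₐ[K] L) := commGroupOfGen g hgen
  have h := card_groupCohomology_even (Rep.res (galHom K L) (repC L)) g hgen 2 (by decide)
  rw [card_gal] at h
  rw [h]
  exact idx_delta_nrm_sigmaC g hgen

include hgen in
theorem card_H1_eq :
    Nat.card (groupCohomology (Rep.res (galHom K L) (repC L)) 1) =
      idx (nrm (MonoidHom.toAdditive (sigmaC (g.restrictScalars ℚ))) (finrank K L))
        (delta (MonoidHom.toAdditive (sigmaC (g.restrictScalars ℚ)))) := by
  letI : CommGroup (L ≃ₐ[K] L) := commGroupOfGen g hgen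
  have h := card_groupCohomology_odd (Rep.res (galHom K L) (repC L)) g hgen 1 (by decide)
  rw [card_gal] at h
  exact h

include hgen in
/-- **First inequality, cohomological form**: `#H²(G, C_L) = n · #H¹(G, C_L)`, both finite. -/
theorem first_inequality_rep [IsUnramifiedAtInfinitePlaces K L] :
    Finite (groupCohomology (Rep.res (galHom K L) (repC L)) 1) ∧
      Finite (groupCohomology (Rep.res (galHom K L) (repC L)) 2) ∧
      Nat.card (groupCohomology (Rep.res (galHom K L) (repC L)) 2) =
        finrank K L * Nat.card (groupCohomology (Rep.res (galHom K L) (repC L)) 1) := by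
  obtain ⟨hd, -, h⟩ := first_inequality g hgen
  have h2 := card_H2_eq g hgen
  have h1 := card_H1_eq g hgen
  rw [idx_delta_nrm_sigmaC g hgen] at h
  refine ⟨?_, ?_, ?_⟩
  · refine (Nat.card_ne_zero.mp ?_).2
    rw [h1]
    exact hd.2
  · refine (Nat.card_ne_zero.mp ?_).2
    rw [h2, ← idx_delta_nrm_sigmaC g hgen]
    exact hd.1
  · rw [h2, h1]
    exact h

include hgen in
/-- with the second inequality `[C_K : N C_L] ≤ n`: `H¹(G, C_L) = 0` and `#H²(G, C_L) = n` -/
theorem h1_h2_of_index_normC_le [IsUnramifiedAtInfinitePlaces K L]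
    (h2 : (normC K L).range.index ≤ finrank K L) :
    Subsingleton (groupCohomology (Rep.res (galHom K L) (repC L)) 1) ∧
      Nat.card (groupCohomology (Rep.res (galHom K L) (repC L)) 2) = finrank K L := by
  obtain ⟨he, h1⟩ := index_eq_and_idx_eq_one_of_le g hgen h2
  refine ⟨?_, by rw [card_H2_eq g hgen, he]⟩
  have := card_H1_eq g hgen
  rw [h1] at this
  exact (Nat.card_eq_one_iff_unique.mp this).1

include hgen in
/-- with the second inequality `[J_K : Kˣ · N J_L] ≤ n`: `H¹(G, C_L) = 0` and `#H²(G, C_L) = n` -/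
theorem h1_h2_of_index_le [IsUnramifiedAtInfinitePlaces K L]
    (h2 : ((diag K).range ⊔ (normJ K L).range).index ≤ finrank K L) :
    Subsingleton (groupCohomology (Rep.res (galHom K L) (repC L)) 1) ∧
      Nat.card (groupCohomology (Rep.res (galHom K L) (repC L)) 2) = finrank K L := by
  rw [index_sup_range_normJ] at h2
  exact h1_h2_of_index_normC_le g hgen h2

end Cyclic

/-- **Prime degree**: for `L/K` Galois of odd prime degree `p`, the second inequality
`[J_K : Kˣ · N J_L] ≤ p` implies `H¹(G, C_L) = 0` and `#H²(G, C_L) = p`. -/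
theorem h1_h2_of_prime_degree {p : ℕ} (hp : p.Prime) (hp2 : p ≠ 2) (hdeg : finrank K L = p)
    (h2 : ((diag K).range ⊔ (normJ K L).range).index ≤ p) :
    Subsingleton (groupCohomology (Rep.res (galHom K L) (repC L)) 1) ∧
      Nat.card (groupCohomology (Rep.res (galHom K L) (repC L)) 2) = p := by
  have hcard : Nat.card (L ≃ₐ[K] L) = p := by rw [IsGalois.card_aut_eq_finrank, hdeg]
  haveI : Fact p.Prime := ⟨hp⟩
  have hcyc : IsCyclic (L ≃ₐ[K] L) := isCyclic_of_prime_card hcard
  obtain ⟨g, hg⟩ := hcyc.exists_generator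
  have hodd : Odd (finrank K L) := by
    rw [hdeg]
    exact hp.odd_of_ne_two hp2
  haveI : IsUnramifiedAtInfinitePlaces K L := IsUnramifiedAtInfinitePlaces_of_odd_finrank hodd
  rw [← hdeg] at h2 ⊢
  exact h1_h2_of_index_le g hg h2

end Fermat.Agent.CFT.C4.FirstInequalityRep
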